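/-
S55 / 33d-PRIME-LAYER (helper24): invariants of a coinduced representation under a NORMAL
subgroup.  Mathlib only, in the `Rep` vocabulary of `Idele73.Mackey`.

For `ψ : Γ →* H`, `B : Rep k Γ` and `N ⊴ H`:
`(Coind_ψ B)^N ≅ Coind_{ψbar} (B^{ψ⁻¹ N})` as representations of `H ⧸ N`, where
`ψbar : Γ ⧸ ψ⁻¹ N →* H ⧸ N`.  (A function `f : H → B` with `f (ψ τ * h) = τ • f h` which is right
`N`-invariant takes values in the `ψ⁻¹ N`-invariants because `N` is normal.)

Together with `Idele73.Mackey.isoBiproduct` this computes `(Jq q L)^N` as a module over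
`H ⧸ N` for every subquotient `N ⊴ H ≤ Gal(L/ℚ)`: the same shape as for `N = 1`, with the
local field `E_x` replaced by the fixed field of `φ⁻¹(x N x⁻¹)`.
-/
import Mathlib

set_option autoImplicit false

namespace Fermat.Agent.S55.PrimeLayer24.CoindInv

open CategoryTheory

variable {k : Type} [CommRing k] {Γ H : Type} [Group Γ] [Group H]
variable (ψ : Γ →* H) (B : Rep.{0} k Γ) (N : Subgroup H) [N.Normal]

/-- `ψbar : Γ ⧸ ψ⁻¹ N →* H ⧸ N`. -/
noncomputable def psiBar : Γ ⧸ N.comap ψ →* H ⧸ N :=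
  QuotientGroup.map (N.comap ψ) N ψ le_rfl

@[simp] lemma psiBar_mk (τ : Γ) : psiBar ψ N (τ : Γ ⧸ N.comap ψ) = ((ψ τ : H) : H ⧸ N) := rfl

lemma psiBar_injective : Function.Injective (psiBar ψ N) := by
  rw [injective_iff_map_eq_one]
  intro x hx
  obtain ⟨τ, rfl⟩ := QuotientGroup.mk_surjective x
  rw [psiBar_mk, QuotientGroup.eq_one_iff] at hx
  exact (QuotientGroup.eq_one_iff τ).2 hx

/-- the source: `(Coind_ψ B)^N` as a representation of `H ⧸ N`. -/
noncomputable abbrev src : Rep.{0} k (H ⧸ N) := (Rep.coind ψ B).quotientToInvariants N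

/-- the target: `Coind_{ψbar} (B^{ψ⁻¹ N})`. -/
noncomputable abbrev tgt : Rep.{0} k (H ⧸ N) :=
  Rep.coind (psiBar ψ N) (B.quotientToInvariants (N.comap ψ))

variable {ψ B N}

/-- value of an element of the source at `h : H`. -/
def srcVal (f : (src ψ B N).V) (h : H) : B.V := f.1.1 h

lemma srcVal_equivariant (f : (src ψ B N).V) (τ : Γ) (h : H) :
    srcVal f (ψ τ * h) = B.ρ τ (srcVal f h) := f.1.2 τ h

lemma srcVal_mul_right (f : (src ψ B N).V) (h : H) {n : H} (hn : n ∈ N) :
    srcVal f (h * n) = srcVal f h := by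
  have := f.2 ⟨n, hn⟩
  have h2 := congrArg (fun F : Representation.coindV ψ B.ρ => F.1 h) this
  exact h2

lemma srcVal_mem_invariants (f : (src ψ B N).V) (h : H) :
    srcVal f h ∈ Representation.invariants (B.ρ.comp (N.comap ψ).subtype) := by
  intro m
  change B.ρ (m : Γ) (srcVal f h) = srcVal f h
  rw [← srcVal_equivariant]
  have hm : h⁻¹ * ψ m * h ∈ N := Subgroup.Normal.conj_mem' inferInstance (ψ m) (Subgroup.mem_comap.mp m.2) h
  have : ψ (m : Γ) * h = h * (h⁻¹ * ψ m * h) := by group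
  rw [this, srcVal_mul_right f h hm]

lemma srcVal_eq_of_leftRel (f : (src ψ B N).V) {a b : H} (hab : QuotientGroup.leftRel N a b) :
    srcVal f a = srcVal f b := by
  rw [QuotientGroup.leftRel_apply] at hab
  have : b = a * (a⁻¹ * b) := by group
  rw [this, srcVal_mul_right f a hab]

/-- the function `H ⧸ N → B^{ψ⁻¹ N}` attached to an element of the source. -/
def fwdFun (f : (src ψ B N).V) (x : H ⧸ N) :
    Representation.invariants (B.ρ.comp (N.comap ψ).subtype) :=
  Quotient.liftOn' x (fun h => (⟨srcVal f h, srcVal_mem_invariants f h⟩ :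
      Representation.invariants (B.ρ.comp (N.comap ψ).subtype)))
    (fun _ _ hab => Subtype.ext (srcVal_eq_of_leftRel f hab))

@[simp] lemma fwdFun_mk (f : (src ψ B N).V) (h : H) :
    ((fwdFun f (h : H ⧸ N) :
      Representation.invariants (B.ρ.comp (N.comap ψ).subtype)) : B.V) = srcVal f h := rfl

lemma fwdFun_mem (f : (src ψ B N).V) :
    fwdFun f ∈ Representation.coindV (psiBar ψ N) (B.ρ.quotientToInvariants (N.comap ψ)) := by
  intro t x
  obtain ⟨τ, rfl⟩ := QuotientGroup.mk_surjective t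
  obtain ⟨h, rfl⟩ := QuotientGroup.mk_surjective x
  apply Subtype.ext
  rw [psiBar_mk, ← QuotientGroup.mk_mul, fwdFun_mk, srcVal_equivariant]
  rfl

variable (ψ B N) in
/-- the forward map `(Coind_ψ B)^N → Coind_{ψbar} (B^{ψ⁻¹ N})`. -/
noncomputable def fwd : (src ψ B N).V →ₗ[k] (tgt ψ B N).V where
  toFun f := ⟨fwdFun f, fwdFun_mem f⟩
  map_add' f f' := by
    apply Subtype.ext; funext x
    obtain ⟨h, rfl⟩ := QuotientGroup.mk_surjective x
    apply Subtype.ext
    rfl
  map_smul' c f := by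
    apply Subtype.ext; funext x
    obtain ⟨h, rfl⟩ := QuotientGroup.mk_surjective x
    apply Subtype.ext
    rfl

lemma fwd_apply_mk (f : (src ψ B N).V) (h : H) :
    (((fwd ψ B N f).1 (h : H ⧸ N) :
      Representation.invariants (B.ρ.comp (N.comap ψ).subtype)) : B.V) = srcVal f h := rfl

/-- value of an element of the target at `h : H`. -/
def tgtVal (F : (tgt ψ B N).V) (h : H) : B.V :=
  ((F.1 (h : H ⧸ N) : Representation.invariants (B.ρ.comp (N.comap ψ).subtype)) : B.V)

lemma tgtVal_equivariant (F : (tgt ψ B N).V) (τ : Γ) (h : H) :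
    tgtVal F (ψ τ * h) = B.ρ τ (tgtVal F h) := by
  have := F.2 (τ : Γ ⧸ N.comap ψ) (h : H ⧸ N)
  rw [psiBar_mk, ← QuotientGroup.mk_mul] at this
  have h2 := congrArg (fun z : Representation.invariants (B.ρ.comp (N.comap ψ).subtype) =>
    (z : B.V)) this
  exact h2

lemma tgtVal_mul_right (F : (tgt ψ B N).V) (h : H) {n : H} (hn : n ∈ N) :
    tgtVal F (h * n) = tgtVal F h := by
  unfold tgtVal
  have : ((h * n : H) : H ⧸ N) = (h : H ⧸ N) := by
    rw [QuotientGroup.mk_mul, (QuotientGroup.eq_one_iff n).2 hn, mul_one]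
  rw [this]

variable (ψ B N) in
/-- the backward map. -/
noncomputable def bwd : (tgt ψ B N).V →ₗ[k] (src ψ B N).V where
  toFun F := ⟨⟨fun h => tgtVal F h, fun τ h => tgtVal_equivariant F τ h⟩, fun n => by
    apply Subtype.ext; funext h
    exact tgtVal_mul_right F h n.2⟩
  map_add' F F' := by
    apply Subtype.ext; apply Subtype.ext; funext h
    rfl
  map_smul' c F := by
    apply Subtype.ext; apply Subtype.ext; funext h
    rfl

lemma bwd_apply (F : (tgt ψ B N).V) (h : H) : srcVal (bwd ψ B N F) h = tgtVal F h := rfl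

lemma bwd_fwd (f : (src ψ B N).V) : bwd ψ B N (fwd ψ B N f) = f := by
  apply Subtype.ext; apply Subtype.ext; funext h
  rfl

lemma fwd_bwd (F : (tgt ψ B N).V) : fwd ψ B N (bwd ψ B N F) = F := by
  apply Subtype.ext; funext x
  obtain ⟨h, rfl⟩ := QuotientGroup.mk_surjective x
  apply Subtype.ext
  rfl

variable (ψ B N) in
/-- the linear equivalence `(Coind_ψ B)^N ≃ Coind_{ψbar} (B^{ψ⁻¹ N})`. -/
noncomputable def linEquiv : (src ψ B N).V ≃ₗ[k] (tgt ψ B N).V :=
  LinearEquiv.ofLinearMap (fwd ψ B N) (bwd ψ B N)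
    (LinearMap.ext fwd_bwd) (LinearMap.ext bwd_fwd)

lemma fwd_equivariant (x₀ : H ⧸ N) (f : (src ψ B N).V) :
    fwd ψ B N ((src ψ B N).ρ x₀ f) = (tgt ψ B N).ρ x₀ (fwd ψ B N f) := by
  obtain ⟨h₀, rfl⟩ := QuotientGroup.mk_surjective x₀
  apply Subtype.ext; funext x
  obtain ⟨h, rfl⟩ := QuotientGroup.mk_surjective x
  apply Subtype.ext
  rfl

variable (ψ B N) in
/-- **Invariants of a coinduced representation under a normal subgroup**:
`(Coind_ψ B)^N ≅ Coind_{ψbar} (B^{ψ⁻¹ N})` in `Rep k (H ⧸ N)`. -/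
noncomputable def coindInvIso : src ψ B N ≅ tgt ψ B N :=
  Rep.mkIso <| Representation.Equiv.mk (linEquiv ψ B N) (fun x₀ => by
    apply LinearMap.ext
    intro f
    exact fwd_equivariant x₀ f)

lemma coindInvIso_hom_apply (f : (src ψ B N).V) (h : H) :
    ((((coindInvIso ψ B N).hom.hom f).1 (h : H ⧸ N) :
      Representation.invariants (B.ρ.comp (N.comap ψ).subtype)) : B.V) = f.1.1 h := rfl

lemma coindInvIso_inv_apply (F : (tgt ψ B N).V) (h : H) :
    ((coindInvIso ψ B N).inv.hom F).1.1 h =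
      ((F.1 (h : H ⧸ N) : Representation.invariants (B.ρ.comp (N.comap ψ).subtype)) : B.V) := rfl

end Fermat.Agent.S55.PrimeLayer24.CoindInv
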