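/-
S55 / 33d-PRIME-LAYER (helper24): the glue between the two inequalities of global class field
theory, stated in helper54's Herbrand `Pair` vocabulary on a cyclic group `Q` of prime order `p`,
and the hypothesis `hcyc` of the devissage `SubQuot99.subquot_pGroup` / `subquot_pPart`
(Mathlib `groupCohomology` of `Rep k Q`).

* (FI31)  `q(B) = p`            (first inequality: Herbrand quotient of the class module),
* (SI32)  `|B^Q / N B| ∣ p`     (second inequality),
imply `H¹(Q, B) = 0` and `|H²(Q, B)| ∣ p` (indeed `= p`).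
-/
import Mathlib
import Fermat.Agent.S55.HerbrandRep54
import Fermat.Agent.S55.SubQuot99.Devissage

set_option autoImplicit false

namespace Fermat.Agent.S55.PrimeLayer24.Glue

open Fermat.Agent.S55 Fermat.Agent.S55.Herbrand54 Fermat.Agent.S55.HerbrandCyclic54
open CategoryTheory

universe u

variable {k Q : Type u} [CommRing k] [Group Q]

/-- The action of `Q` on the underlying additive group of `B : Rep k Q` (`Q` any group). -/
def rhoAdd (B : Rep.{u, u, u} k Q) : Q →* AddMonoid.End B.V where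
  toFun τ := (B.ρ τ).toAddMonoidHom
  map_one' := by
    rw [map_one]
    rfl
  map_mul' σ τ := by
    rw [map_mul]
    rfl

theorem rhoAdd_apply (B : Rep.{u, u, u} k Q) (τ : Q) (x : B.V) : rhoAdd B τ x = B.ρ τ x := rfl

/-- numerical core: `a / b = p`, `a ∣ p`, `a, b > 0` force `a = p`, `b = 1`. -/
theorem eq_of_div_eq {a b p : ℕ} (ha : 0 < a) (hb : 0 < b) (hp : 0 < p)
    (hq : (a : ℚ) / (b : ℚ) = p) (hdvd : a ∣ p) : a = p ∧ b = 1 := by
  have hb' : (b : ℚ) ≠ 0 := by exact_mod_cast hb.ne'
  have h1 : (a : ℚ) = p * b := by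
    field_simp at hq
    linarith
  have h2 : a = p * b := by exact_mod_cast h1
  have h3 : a ≤ p := Nat.le_of_dvd hp hdvd
  have h4 : b ≤ 1 := by
    by_contra h
    rw [not_le] at h
    have : p * 2 ≤ p * b := Nat.mul_le_mul_left p h
    omega
  have hb1 : b = 1 := by omega
  refine ⟨?_, hb1⟩
  rw [h2, hb1, mul_one]

/-- **The glue.** For a cyclic group `Q = ⟨s⟩` and `B : Rep k Q`: if the Herbrand pair of `B` is
defined with quotient `p` (first inequality) and `|Ĥ⁰| = |B^Q / N B|` divides `p`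
(second inequality), then `H¹(Q, B) = 0` and `|H²(Q, B)| ∣ p`. -/
theorem good_of_pair [Fintype Q] {p : ℕ} (hp : 0 < p) (B : Rep.{u, u, u} k Q) (s : Q)
    (hs : ∀ x : Q, x ∈ Subgroup.zpowers s)
    (hdef : (cyclicPair (rhoAdd B) s).IsDefined)
    (hq : (cyclicPair (rhoAdd B) s).q = p)
    (h0 : Nat.card (cyclicPair (rhoAdd B) s).H0 ∣ p) :
    SubQuot99.Good p Q B := by
  have : IsCyclic Q := ⟨⟨s, hs⟩⟩
  let _ : CommGroup Q := IsCyclic.commGroup
  have e2 : Nat.card (groupCohomology B 2) = Nat.card (cyclicPair (rhoAdd B) s).H0 :=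
    HerbrandRep54.card_H2 B s hs
  have e1 : Nat.card (groupCohomology B 1) = Nat.card (cyclicPair (rhoAdd B) s).H1 :=
    HerbrandRep54.card_H1 B s hs
  obtain ⟨hf0, hf1⟩ := hdef
  have ha : 0 < Nat.card (cyclicPair (rhoAdd B) s).H0 := Nat.card_pos
  have hb : 0 < Nat.card (cyclicPair (rhoAdd B) s).H1 := Nat.card_pos
  obtain ⟨hA, hB⟩ := eq_of_div_eq ha hb hp hq h0
  refine ⟨?_, ?_⟩
  · have h1 : Nat.card (groupCohomology B 1) = 1 := by rw [e1, hB]
    have hsub : Subsingleton (groupCohomology B 1) :=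
      (Nat.card_eq_one_iff_unique.mp h1).1
    exact ModuleCat.isZero_of_subsingleton _
  · rw [e2, hA]

/-- The same with the group given only up to `Nat.card Q = p` prime: any non-identity element
generates. -/
theorem good_of_pair_of_card [Fintype Q] {p : ℕ} [hp : Fact p.Prime] (hcard : Nat.card Q = p)
    (B : Rep.{u, u, u} k Q) (s : Q) (hs1 : s ≠ 1)
    (hdef : (cyclicPair (rhoAdd B) s).IsDefined)
    (hq : (cyclicPair (rhoAdd B) s).q = p)
    (h0 : Nat.card (cyclicPair (rhoAdd B) s).H0 ∣ p) :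
    SubQuot99.Good p Q B := by
  refine good_of_pair hp.out.pos B s ?_ hdef hq h0
  intro x
  have hz : Subgroup.zpowers s = ⊤ := by
    have : Fact (Nat.card Q).Prime := ⟨hcard ▸ hp.out⟩
    rcases Subgroup.eq_bot_or_eq_top_of_prime_card (Subgroup.zpowers s) with h | h
    · exact absurd (Subgroup.zpowers_eq_bot.mp h) hs1
    · exact h
  rw [hz]
  exact Subgroup.mem_top x

/-- **`hcyc` from the two inequalities**, in exactly the binder shape of
`SubQuot99.subquot_pGroup` / `SubQuot99.subquot_pPart`: for every canonical prime layer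
`(H ⧸ N, (res H A)^N)` of `(G, A)` give a non-trivial element `s` of `H ⧸ N` such that the Herbrand
pair of the layer is defined with quotient `p` and `|Ĥ⁰|` divides `p`. -/
theorem hcyc_of_inequalities {G : Type u} [Group G] [Finite G] (A : Rep.{u, u, u} k G)
    (p : ℕ) [Fact p.Prime]
    (hin : ∀ (H : Subgroup G) (N : Subgroup H) [N.Normal], Nat.card (H ⧸ N) = p →
      ∃ s : H ⧸ N, s ≠ 1 ∧
        (@cyclicPair (H ⧸ N) _ (Fintype.ofFinite _) _ _
          (rhoAdd ((Rep.res H.subtype A).quotientToInvariants N)) s).IsDefined ∧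
        (@cyclicPair (H ⧸ N) _ (Fintype.ofFinite _) _ _
          (rhoAdd ((Rep.res H.subtype A).quotientToInvariants N)) s).q = p ∧
        Nat.card (@cyclicPair (H ⧸ N) _ (Fintype.ofFinite _) _ _
          (rhoAdd ((Rep.res H.subtype A).quotientToInvariants N)) s).H0 ∣ p) :
    ∀ (H : Subgroup G) (N : Subgroup H) [N.Normal], Nat.card (H ⧸ N) = p →
      SubQuot99.Good p (H ⧸ N) ((Rep.res H.subtype A).quotientToInvariants N) := by
  intro H N _ hcard
  obtain ⟨s, hs1, hdef, hq, h0⟩ := hin H N hcard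
  letI : Fintype (H ⧸ N) := Fintype.ofFinite _
  exact good_of_pair_of_card hcard _ s hs1 hdef hq h0

end Fermat.Agent.S55.PrimeLayer24.Glue
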